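/-
S55 / DICT / Dense, node DICT-Dense-2 (helper258): weak approximation at finitely many finite
places, and finiteness of the set of places over a rational prime.
-/
import Fermat.Agent.S55.Dict.Defs
import Fermat.Agent.S55.NIT.Inst.WeakApprox

set_option autoImplicit false

namespace Fermat.Agent.S55.Dict

open scoped Pointwise
open NumberField IsDedekindDomain WithZero
open Fermat.Agent.S55.NIT (Pl)

variable {K : Type} [Field K] [NumberField K] [Algebra K Qb]

/-- DICT-Dense-2 = A4: weak approximation. -/
theorem weak_approx (T : Finset (Pl K)) (x : Pl K → K) (N : ℕ) :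
    ∃ z : K, ∀ v ∈ T, v.valuation K (z - x v) < exp (-(N : ℤ)) :=
  NIT.Inst.weak_approx T x N

/-- DICT-Dense-2. -/
theorem finite_overQ {q : ℕ} (hq : q.Prime) : {v : Pl K | OverQ K q v}.Finite := by
  have hne : Ideal.span {(q : 𝓞 K)} ≠ ⊥ := by
    rw [Ne, Ideal.span_singleton_eq_bot]
    exact_mod_cast hq.ne_zero
  refine (Ideal.finite_factors hne).subset fun v hv => ?_
  show v.asIdeal ∣ Ideal.span {(q : 𝓞 K)}
  rw [Ideal.dvd_span_singleton]
  exact hv

end Fermat.Agent.S55.Dict
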