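/-
S55 / DICT / Dense, task DICT-Dense-6 (helper47): `K` is dense in `Map_{Dec B}(X_K, ℚ̄)` (A3).
Core: A2 (`exists_close_of_inHens`, file `Dense/InHens.lean`) is taken as a hypothesis `DenseA2 K`;
`Dense/Equivariant.lean` plugs it in.
-/
import Fermat.Agent.S55.Dict.Below
import Fermat.Agent.S55.Dict.Close
import Fermat.Agent.S55.Dict.BelowVal
import Fermat.Agent.S55.Dict.Dense.WeakApprox

set_option autoImplicit false

namespace Fermat.Agent.S55.Dict

open scoped Pointwise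
open NumberField IsDedekindDomain WithZero
open Fermat.Agent.S55.NIT (Pl)

/-- The statement A2 (`exists_close_of_inHens`): `K` is dense in its henselisations. -/
def DenseA2 (K : Type) [Field K] [NumberField K] [Algebra K Qb] : Prop :=
  ∀ {v : Pl K} {B : ValuationSubring Qb}, Below K v B → ∀ {q : ℕ}, q.Prime → OverQ K q v →
    ∀ t : Qb, InHens K B t → ∀ n : ℕ, ∃ z : K, Close B q n t (algebraMap K Qb z)

theorem mem_nonunits_iff_inv_notMem {A : ValuationSubring Qb} {a : Qb} (ha : a ≠ 0) :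
    a ∈ A.nonunits ↔ a⁻¹ ∉ A := by
  rw [ValuationSubring.mem_nonunits_iff, ← ValuationSubring.valuation_le_one_iff, map_inv₀, not_le]
  have h0 : 0 < A.valuation a := zero_lt_iff.2 ((map_ne_zero _).2 ha)
  exact (one_lt_inv₀ h0).symm

theorem liesOverPrime_smul_of_prime (g : GQ) {B : ValuationSubring Qb} {q : ℕ} (hq : q.Prime)
    (hB : B.LiesOverPrime q) : (g • B).LiesOverPrime q := by
  have hq0 : (q : Qb) ≠ 0 := Nat.cast_ne_zero.2 hq.ne_zero
  have hB' : (q : Qb) ∈ B.nonunits := hB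
  show (q : Qb) ∈ (g • B).nonunits
  rw [mem_nonunits_iff_inv_notMem hq0] at hB' ⊢
  rw [ValuationSubring.mem_pointwise_smul_iff_inv_smul_mem]
  have : g⁻¹ • ((q : Qb)⁻¹) = (q : Qb)⁻¹ := by
    show g⁻¹ ((q : Qb)⁻¹) = (q : Qb)⁻¹
    rw [map_inv₀, map_natCast]
  rwa [this]

variable {K : Type} [Field K] [NumberField K] [Algebra K Qb]

omit [NumberField K] in
theorem mk_mul_of_mem_fixG (g : GQ) {u : GQ} (hu : u ∈ fixG K) :
    ((g * u : GQ) : GQ ⧸ fixG K) = (g : GQ ⧸ fixG K) := by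
  rw [eq_comm, QuotientGroup.eq]
  simpa using hu

/-- DICT-Dense-6, core. One coset. -/
theorem exists_close_apply_of_denseA2 (hA2 : DenseA2 K) {B : ValuationSubring Qb} {q : ℕ}
    (hq : q.Prime)
    (hB : B.LiesOverPrime q) (y : GQ ⧸ fixG K → Qb)
    (hy : ∀ d ∈ Dec B, ∀ x, y (d • x) = d (y x)) (n : ℕ) (g : GQ) :
    ∃ z : K, Close B q n (y (g : GQ ⧸ fixG K)) (g (algebraMap K Qb z)) := by
  have hB' : (g⁻¹ • B).LiesOverPrime q := liesOverPrime_smul_of_prime g⁻¹ hq hB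
  obtain ⟨v, hv⟩ := exists_place (K := K) (g⁻¹ • B) hq hB'
  have hvq : OverQ K q v := (hv.overQ_iff q).2 hB'
  have ht : InHens K (g⁻¹ • B) (g⁻¹ (y (g : GQ ⧸ fixG K))) := by
    intro u hu huK
    have hd : g * u * g⁻¹ ∈ Dec B := by
      rw [mem_Dec, mul_smul, mul_smul, mem_Dec.1 hu, smul_inv_smul]
    have h1 := hy _ hd (g : GQ ⧸ fixG K)
    have h2 : (g * u * g⁻¹) • (g : GQ ⧸ fixG K) = (g : GQ ⧸ fixG K) := by
      have h0 : (g * u * g⁻¹) • (g : GQ ⧸ fixG K) = (((g * u * g⁻¹) * g : GQ) : GQ ⧸ fixG K) := rfl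
      rw [h0, inv_mul_cancel_right, mk_mul_of_mem_fixG g huK]
    rw [h2] at h1
    have h3 : (g * u * g⁻¹) (y (g : GQ ⧸ fixG K)) = g (u (g⁻¹ (y (g : GQ ⧸ fixG K)))) := rfl
    rw [h3] at h1
    have h4 : g⁻¹ (g (u (g⁻¹ (y (g : GQ ⧸ fixG K))))) = u (g⁻¹ (y (g : GQ ⧸ fixG K))) :=
      g.symm_apply_apply _
    rw [← h4, ← h1]
  obtain ⟨z, hz⟩ := hA2 hv hq hvq _ ht n
  refine ⟨z, ?_⟩
  have h5 := hz.map g
  rw [smul_inv_smul] at h5
  have h6 : g (g⁻¹ (y (g : GQ ⧸ fixG K))) = y (g : GQ ⧸ fixG K) := g.apply_symm_apply _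
  rwa [h6] at h5

/-- DICT-Dense-6 = A3, core: `K` is dense in `Map_{Dec B}(X_K, ℚ̄)`. -/
theorem exists_close_of_equivariant_of_denseA2 (hA2 : DenseA2 K) {B : ValuationSubring Qb} {q : ℕ}
    (hq : q.Prime)
    (hB : B.LiesOverPrime q) (y : GQ ⧸ fixG K → Qb)
    (hy : ∀ d ∈ Dec B, ∀ x, y (d • x) = d (y x)) (n : ℕ) :
    ∃ z : K, ∀ g : GQ, Close B q n (y (g : GQ ⧸ fixG K)) (g (algebraMap K Qb z)) := by
  classical
  have h1 : ∀ v : Pl K, ∃ g : GQ, OverQ K q v → Below K v (g⁻¹ • B) := by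
    intro v
    by_cases hv : OverQ K q v
    · obtain ⟨g, hg⟩ := exists_below_smul hq hB v hv
      exact ⟨g, fun _ => hg⟩
    · exact ⟨1, fun h => absurd h hv⟩
  choose gv hgv using h1
  have h2 : ∀ v : Pl K, ∃ z : K,
      Close B q n (y (gv v : GQ ⧸ fixG K)) (gv v (algebraMap K Qb z)) :=
    fun v => exists_close_apply_of_denseA2 hA2 hq hB y hy n (gv v)
  choose zv hzv using h2
  have h3 : ∀ v : Pl K, ∃ N : ℕ, OverQ K q v → ∀ a b : K,
      v.valuation K (a - b) < exp (-(N : ℤ)) →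
        Close ((gv v)⁻¹ • B) q n (algebraMap K Qb a) (algebraMap K Qb b) := by
    intro v
    by_cases hv : OverQ K q v
    · obtain ⟨N, hN⟩ := (hgv v hv).exists_close_of_valuation_lt hq n
      exact ⟨N, fun _ => hN⟩
    · exact ⟨0, fun h => absurd h hv⟩
  choose Nv hNv using h3
  set T : Finset (Pl K) := (finite_overQ (K := K) hq).toFinset with hT
  obtain ⟨z, hz⟩ := weak_approx T zv (T.sup Nv)
  refine ⟨z, fun g => ?_⟩
  -- the statement at the chosen representatives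
  have key : ∀ v : Pl K, OverQ K q v →
      Close B q n (y (gv v : GQ ⧸ fixG K)) (gv v (algebraMap K Qb z)) := by
    intro v hv
    have hvT : v ∈ T := by
      rw [hT, Set.Finite.mem_toFinset]
      exact hv
    have hlt : v.valuation K (z - zv v) < exp (-(Nv v : ℤ)) := by
      refine lt_of_lt_of_le (hz v hvT) ?_
      rw [WithZero.exp_le_exp]
      have : Nv v ≤ T.sup Nv := Finset.le_sup hvT
      omega
    have h4 := (hNv v hv z (zv v) hlt).map (gv v)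
    rw [smul_inv_smul] at h4
    exact (hzv v).trans h4.symm
  -- the general case
  have hB' : (g⁻¹ • B).LiesOverPrime q := liesOverPrime_smul_of_prime g⁻¹ hq hB
  obtain ⟨v, hv⟩ := exists_place (K := K) (g⁻¹ • B) hq hB'
  have hvq : OverQ K q v := (hv.overQ_iff q).2 hB'
  obtain ⟨u, huK, hu⟩ := hv.exists_smul (hgv v hvq)
  have hd : gv v * u * g⁻¹ ∈ Dec B := by
    rw [mem_Dec, mul_smul, mul_smul, hu, smul_inv_smul]
  have h5 := hy _ hd (g : GQ ⧸ fixG K)
  have h6 : (gv v * u * g⁻¹) • (g : GQ ⧸ fixG K) = (gv v : GQ ⧸ fixG K) := by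
    have h0 : (gv v * u * g⁻¹) • (g : GQ ⧸ fixG K)
        = (((gv v * u * g⁻¹) * g : GQ) : GQ ⧸ fixG K) := rfl
    rw [h0, inv_mul_cancel_right, mk_mul_of_mem_fixG (gv v) huK]
  rw [h6] at h5
  have h7 : (gv v * u * g⁻¹) (g (algebraMap K Qb z)) = gv v (algebraMap K Qb z) := by
    show gv v (u (g⁻¹ (g (algebraMap K Qb z)))) = _
    have : g⁻¹ (g (algebraMap K Qb z)) = algebraMap K Qb z := g.symm_apply_apply _
    rw [this, huK z]
  have h8 := key v hvq
  rw [h5, ← h7] at h8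
  have h9 := h8.map (gv v * u * g⁻¹)⁻¹
  have h10 : (gv v * u * g⁻¹)⁻¹ • B = B := by
    rw [inv_smul_eq_iff]
    exact (mem_Dec.1 hd).symm
  rw [h10] at h9
  have h11 : ∀ x : Qb, (gv v * u * g⁻¹)⁻¹ ((gv v * u * g⁻¹) x) = x :=
    fun x => (gv v * u * g⁻¹).symm_apply_apply x
  rwa [h11, h11] at h9

end Fermat.Agent.S55.Dict
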