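/-
S55 / DICT / Dense-5 = A2 : a number field is dense in its henselisations; reduction to the integral
case (which is taken as a hypothesis here; `Dense/InHens.lean` plugs in `Dense/IntegralCase.lean`).
Owner: helper4.
-/
import Fermat.Agent.S55.Dict.Close

set_option autoImplicit false

namespace Fermat.Agent.S55.Dict

open scoped Pointwise
open NumberField IsDedekindDomain WithZero
open Fermat.Agent.S55.NIT (Pl)

variable {K : Type} [Field K] [NumberField K] [Algebra K Qb]

/-- DICT-Dense-5, core: the general case follows from the integral case. -/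
theorem exists_close_of_inHens_of_integralCase {v : Pl K} {B : ValuationSubring Qb}
    (h : Below K v B) {q : ℕ} (hq : q.Prime) (hv : OverQ K q v)
    (hInt : ∀ (t : Qb), IsIntegral ℤ t → InHens K B t → ∀ n : ℕ,
      ∃ z : K, Close B q n t (algebraMap K Qb z))
    (t : Qb) (ht : InHens K B t) (n : ℕ) :
    ∃ z : K, Close B q n t (algebraMap K Qb z) := by
  have hB : B.LiesOverPrime q := by
    have h1 := (h (q : 𝓞 K)).1 hv
    show (q : Qb) ∈ B.nonunits
    simpa using h1
  have halg : IsAlgebraic ℤ t :=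
    (IsFractionRing.isAlgebraic_iff ℤ ℚ Qb).2 ((AlgebraicClosure.isAlgebraic ℚ).isAlgebraic t)
  obtain ⟨m, hm0, hmint⟩ := halg.exists_integral_multiple
  rw [zsmul_eq_mul] at hmint
  have hmQ : (m : Qb) ≠ 0 := by exact_mod_cast hm0
  have hmK : (m : K) ≠ 0 := by exact_mod_cast hm0
  have hmt : InHens K B ((m : Qb) * t) := by
    intro g hg hgK
    rw [map_mul, map_intCast, ht g hg hgK]
  obtain ⟨k, hk⟩ := exists_pow_mul_mem hq hB ((m : Qb)⁻¹)
  obtain ⟨z', c, hc, hz'⟩ := hInt _ hmint hmt (n + k)
  refine ⟨z' / (m : K), c * ((q : Qb) ^ k * (m : Qb)⁻¹), B.mul_mem _ _ hc hk, ?_⟩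
  rw [map_div₀, map_intCast]
  have h2 : t - algebraMap K Qb z' / (m : Qb) = ((m : Qb) * t - algebraMap K Qb z') * (m : Qb)⁻¹ := by
    field_simp
  rw [h2, hz', pow_add]
  ring

end Fermat.Agent.S55.Dict
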