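/-
S55 / DICT / Dense, node DICT-Dense-3 (helper190): a finite normal subfield of `ℚ̄` containing `K`
and `t`; the key Galois-theoretic step.
-/
import Fermat.Agent.S55.Dict.Below

set_option autoImplicit false

namespace Fermat.Agent.S55.Dict

open scoped Pointwise
open NumberField IsDedekindDomain WithZero
open Fermat.Agent.S55.NIT (Pl)

/-- `ℚ̄` is an algebraic closure of `ℚ` for the default algebra structure. -/
theorem Hull.isAlgClosure_Qb : IsAlgClosure ℚ Qb := by
  have h : (DivisionRing.toRatAlgebra : Algebra ℚ Qb) = AlgebraicClosure.instAlgebra ℚ :=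
    Subsingleton.elim _ _
  rw [h]
  infer_instance

variable {K : Type} [Field K] [NumberField K] [Algebra K Qb]

/-- DICT-Dense-3 (file Hull.lean). A finite normal subfield of `ℚ̄` containing `K` and `t`. -/
theorem exists_normal_hull (t : Qb) :
    ∃ M : IntermediateField ℚ Qb, FiniteDimensional ℚ M ∧ Normal ℚ M ∧
      (∀ x : K, algebraMap K Qb x ∈ M) ∧ t ∈ M := by
  have hclo : IsAlgClosure ℚ Qb := Hull.isAlgClosure_Qb
  have hnorm : Normal ℚ Qb := IsAlgClosure.normal ℚ Qb
  have halg : Algebra.IsAlgebraic ℚ Qb := hclo.isAlgebraic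
  let F : IntermediateField ℚ Qb := (IsScalarTower.toAlgHom ℚ K Qb).fieldRange
  have hF : FiniteDimensional ℚ F := by
    have : FiniteDimensional ℚ (LinearMap.range (IsScalarTower.toAlgHom ℚ K Qb).toLinearMap) :=
      inferInstance
    exact this
  have ht : FiniteDimensional ℚ (IntermediateField.adjoin ℚ {t}) :=
    IntermediateField.adjoin.finiteDimensional (Algebra.IsAlgebraic.isAlgebraic t).isIntegral
  let M0 : IntermediateField ℚ Qb := F ⊔ IntermediateField.adjoin ℚ {t}
  have hM0 : FiniteDimensional ℚ M0 := IntermediateField.finiteDimensional_sup _ _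
  refine ⟨IntermediateField.normalClosure ℚ M0 Qb, normalClosure.is_finiteDimensional ℚ M0 Qb,
    normalClosure.normal ℚ M0 Qb, fun x => ?_, ?_⟩
  · exact M0.le_normalClosure ((le_sup_left : F ≤ M0) ⟨x, rfl⟩)
  · exact M0.le_normalClosure ((le_sup_right : _ ≤ M0) (IntermediateField.mem_adjoin_simple_self ℚ t))

/-- DICT-Dense-3 (file Hull.lean). The key Galois-theoretic step: an element of `fixG K` which
fixes the prime of `M` below `B` fixes the elements of `M` lying in the henselisation. -/
theorem apply_eq_of_below_smul (M : IntermediateField ℚ Qb) [NumberField M] [Normal ℚ M]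
    (hKM : ∀ x : K, algebraMap K Qb x ∈ M) {B : ValuationSubring Qb} {w : Pl M}
    (hw : Below M w B) {g : GQ} (hg : g ∈ fixG K) (hgw : Below M w (g • B))
    (t : Qb) (htM : t ∈ M) (ht : InHens K B t) : g t = t := by
  obtain ⟨g', hg', hB⟩ := Below.exists_smul hgw hw
  have hfix : ∀ y ∈ M, g' y = y := fun y hy => hg' (⟨y, hy⟩ : M)
  have h1 : g' * g ∈ Dec B := by
    rw [mem_Dec, mul_smul, hB]
  have h2 : g' * g ∈ fixG K := by
    intro x
    show g' (g (algebraMap K Qb x)) = algebraMap K Qb x
    rw [hg x, hfix _ (hKM x)]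
  have h3 : g' (g t) = t := ht _ h1 h2
  have h4 : g t ∈ M := by
    have := AlgEquiv.restrictNormal_commutes g M ⟨t, htM⟩
    rw [show g t = g (algebraMap M Qb ⟨t, htM⟩) from rfl, ← this]
    exact (g.restrictNormal M ⟨t, htM⟩).2
  rw [hfix _ h4] at h3
  exact h3

end Fermat.Agent.S55.Dict
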