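import Mathlib

/-!
# S55 / DICT / Dense-1 (A1): invariant approximation

`Γ` a finite group acting on a commutative ring `R`, `P` a maximal ideal, `t` an element fixed by
the stabiliser of `P`.  Then `t` is congruent modulo `P ^ n` to a `Γ`-invariant element.
-/

set_option autoImplicit false

namespace Fermat.Agent.S55.Dict

open scoped Pointwise

namespace InvariantAux

variable {Γ R : Type*} [Group Γ] [CommRing R] [MulSemiringAction Γ R]

theorem isMaximal_smul (P : Ideal R) [hP : P.IsMaximal] (g : Γ) : (g • P).IsMaximal := by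
  rw [Ideal.pointwise_smul_eq_comap]
  exact Ideal.comap_isMaximal_of_surjective _
    (MulSemiringAction.toRingEquiv Γ R g⁻¹).surjective

theorem smul_mem_pow_smul {I : Ideal R} {x : R} {n : ℕ} (g : Γ) (hx : x ∈ I ^ n) :
    g • x ∈ (g • I) ^ n := by
  rw [← smul_pow']
  exact Ideal.smul_mem_pointwise_smul g x _ hx

end InvariantAux

open InvariantAux in
/-- DICT-Dense-1 = A1. -/
theorem exists_invariant_sub_mem_pow {Γ R : Type*} [Group Γ] [Finite Γ] [CommRing R]
    [MulSemiringAction Γ R] (P : Ideal R) [P.IsMaximal] (t : R)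
    (ht : ∀ g : Γ, g • P = P → g • t = t) (n : ℕ) :
    ∃ z : R, (∀ g : Γ, g • z = z) ∧ t - z ∈ P ^ n := by
  classical
  have := Fintype.ofFinite Γ
  -- the orbit of `P`
  set O : Finset (Ideal R) := Finset.univ.image (fun g : Γ => g • P) with hO
  have hPO : P ∈ O := Finset.mem_image.2 ⟨1, Finset.mem_univ _, one_smul _ _⟩
  have hmemO : ∀ g : Γ, g • P ∈ O := fun g => Finset.mem_image.2 ⟨g, Finset.mem_univ _, rfl⟩
  -- Step 1: `ε₀`
  have hcop : IsCoprime (P ^ n) (∏ Q ∈ O.erase P, Q ^ n) := by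
    refine IsCoprime.prod_right fun Q hQ => ?_
    obtain ⟨hne, hQO⟩ := Finset.mem_erase.1 hQ
    obtain ⟨g, -, rfl⟩ := Finset.mem_image.1 hQO
    have := isMaximal_smul P g
    exact IsCoprime.pow (Ideal.isCoprime_of_isMaximal (Ne.symm hne))
  obtain ⟨a, ha, ε₀, hε₀, hsum⟩ := Ideal.isCoprime_iff_exists.1 hcop
  have hε₀Q : ∀ Q ∈ O.erase P, ε₀ ∈ Q ^ n := fun Q hQ =>
    (Ideal.prod_le_inf.trans (Finset.inf_le hQ)) hε₀
  have hε₀P : ε₀ - 1 ∈ P ^ n := by
    have : ε₀ - 1 = -a := by rw [← hsum]; ring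
    rw [this]; exact neg_mem ha
  -- Step 2: `ε`
  set D : Finset Γ := Finset.univ.filter (fun d : Γ => d • P = P) with hD
  have hmemD : ∀ d : Γ, d ∈ D ↔ d • P = P := fun d => by simp [hD]
  set ε : R := ∏ d ∈ D, d • ε₀ with hε
  have hεinv : ∀ d : Γ, d • P = P → d • ε = ε := by
    intro d hd
    rw [hε, Finset.smul_prod']
    refine Finset.prod_bij (fun x _ => d * x) ?_ ?_ ?_ ?_
    · intro x hx
      rw [hmemD] at hx ⊢
      rw [mul_smul, hx, hd]
    · intro x _ y _ h
      exact mul_left_cancel h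
    · intro y hy
      refine ⟨d⁻¹ * y, ?_, by simp⟩
      rw [hmemD] at hy ⊢
      rw [mul_smul, hy, inv_smul_eq_iff, hd]
    · intro x _
      rw [mul_smul]
  have hεP : ε - 1 ∈ P ^ n := by
    rw [← Ideal.Quotient.eq, map_one, hε, map_prod]
    refine Finset.prod_eq_one fun d hd => ?_
    rw [← map_one (Ideal.Quotient.mk (P ^ n)), Ideal.Quotient.eq]
    have h1 := smul_mem_pow_smul d hε₀P
    rw [(hmemD d).1 hd, smul_sub, smul_one] at h1
    exact h1
  have hεQ : ∀ Q ∈ O.erase P, ε ∈ Q ^ n := by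
    intro Q hQ
    have h1 : (1 : Γ) ∈ D := (hmemD 1).2 (one_smul _ _)
    have h2 : (1 : Γ) • ε₀ ∣ ε := Finset.dvd_prod_of_mem (fun d : Γ => d • ε₀) h1
    rw [one_smul] at h2
    exact Ideal.mem_of_dvd _ h2 (hε₀Q Q hQ)
  -- Step 3: `s`
  set s : R := ε * t with hs
  have hsinv : ∀ d : Γ, d • P = P → d • s = s := fun d hd => by
    rw [hs, smul_mul', hεinv d hd, ht d hd]
  have hsP : t - s ∈ P ^ n := by
    have : t - s = -((ε - 1) * t) := by rw [hs]; ring
    rw [this]
    exact neg_mem (Ideal.mul_mem_right _ _ hεP)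
  have hsQ : ∀ Q ∈ O.erase P, s ∈ Q ^ n := fun Q hQ => Ideal.mul_mem_right _ _ (hεQ Q hQ)
  -- Step 4: the function on the orbit
  let φ : Ideal R → R := fun Q => if h : ∃ g : Γ, g • P = Q then h.choose • s else 0
  have hφ : ∀ g : Γ, φ (g • P) = g • s := by
    intro g
    have h : ∃ g' : Γ, g' • P = g • P := ⟨g, rfl⟩
    have h1 : φ (g • P) = h.choose • s := dif_pos h
    rw [h1]
    have h2 : (g⁻¹ * h.choose) • P = P := by
      rw [mul_smul, h.choose_spec, inv_smul_smul]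
    have h3 := hsinv _ h2
    rw [mul_smul, inv_smul_eq_iff] at h3
    exact h3
  refine ⟨∑ Q ∈ O, φ Q, ?_, ?_⟩
  · intro h
    rw [Finset.smul_sum]
    refine Finset.sum_bij (fun Q _ => h • Q) ?_ ?_ ?_ ?_
    · intro Q hQ
      obtain ⟨g, -, rfl⟩ := Finset.mem_image.1 hQ
      rw [← mul_smul]
      exact hmemO _
    · intro Q _ Q' _ hQQ
      exact smul_left_cancel h hQQ
    · intro Q hQ
      obtain ⟨g, -, rfl⟩ := Finset.mem_image.1 hQ
      refine ⟨(h⁻¹ * g) • P, hmemO _, ?_⟩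
      rw [← mul_smul, mul_inv_cancel_left]
    · intro Q hQ
      obtain ⟨g, -, rfl⟩ := Finset.mem_image.1 hQ
      rw [hφ, ← mul_smul, ← mul_smul, hφ]
  · rw [← Finset.add_sum_erase O φ hPO]
    have h1 : φ P = s := by
      have := hφ 1
      rwa [one_smul, one_smul] at this
    rw [h1, ← sub_sub]
    refine sub_mem hsP (Ideal.sum_mem _ fun Q hQ => ?_)
    obtain ⟨hne, hQO⟩ := Finset.mem_erase.1 hQ
    obtain ⟨g, -, rfl⟩ := Finset.mem_image.1 hQO
    rw [hφ]
    have h2 : g⁻¹ • P ∈ O.erase P := by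
      refine Finset.mem_erase.2 ⟨fun h => hne ?_, hmemO _⟩
      rw [inv_smul_eq_iff] at h
      exact h.symm
    have h3 := smul_mem_pow_smul g (hsQ _ h2)
    rwa [smul_inv_smul] at h3

end Fermat.Agent.S55.Dict
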