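/-
S55 / DICT / Dense-4 (owner helper147): `K` is dense in its henselisation, case of an integral `t`
(the finite-level argument).
-/
import Fermat.Agent.S55.Dict.Below
import Fermat.Agent.S55.Dict.Fix
import Fermat.Agent.S55.Dict.BelowVal
import Fermat.Agent.S55.Dict.Dense.Invariant
import Fermat.Agent.S55.Dict.Dense.Hull

set_option autoImplicit false

namespace Fermat.Agent.S55.Dict

open scoped Pointwise
open NumberField IsDedekindDomain WithZero
open Fermat.Agent.S55.NIT (Pl)
open Fermat.Agent.Lib.WeakChebotarev.Transfer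

variable {K : Type} [Field K] [NumberField K] [Algebra K Qb]

/-- DICT-Dense-4. A2 for integral `t`. -/
theorem exists_close_of_inHens_of_isIntegral {v : Pl K} {B : ValuationSubring Qb}
    (h : Below K v B) {q : ℕ} (hq : q.Prime) (hv : OverQ K q v) (t : Qb) (hint : IsIntegral ℤ t)
    (ht : InHens K B t) (n : ℕ) :
    ∃ z : K, Close B q n t (algebraMap K Qb z) := by
  obtain ⟨M, hfd, hnorm, hKM, htM⟩ := exists_normal_hull (K := K) t
  have : NumberField M := NumberField.of_module_finite ℚ M
  have hB : B.LiesOverPrime q := (h.overQ_iff q).1 hv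
  obtain ⟨w, hw⟩ := exists_place (K := M) B hq hB
  obtain ⟨N, hN⟩ := hw.exists_close_of_valuation_lt hq n
  let Γ0 : Subgroup (M ≃ₐ[ℚ] M) := (fixG K).map (AlgEquiv.restrictNormalHom M)
  have hmax : w.asIdeal.IsMaximal := w.isMaximal
  have htint : IsIntegral ℤ (⟨t, htM⟩ : M) := by
    rw [← isIntegral_algebraMap_iff (algebraMap M Qb).injective]
    exact hint
  let t' : 𝓞 M := ⟨⟨t, htM⟩, htint⟩
  have key : ∀ σ : Γ0, σ • w.asIdeal = w.asIdeal → σ • t' = t' := by
    rintro ⟨σ, g, hg, rfl⟩ hσ
    have hσ' : AlgEquiv.restrictNormalHom M g • w.asIdeal = w.asIdeal := hσ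
    have hgw : Below M w (g • B) := by
      intro x
      rw [mem_nonunits_smul_iff]
      have h1 : x ∈ w.asIdeal ↔ (AlgEquiv.restrictNormalHom M g)⁻¹ • x ∈ w.asIdeal := by
        conv_lhs => rw [← hσ']
        rw [Ideal.mem_pointwise_smul_iff_inv_smul_mem]
      rw [h1, hw, ← map_inv]
      have h2 := coe_restrictNormal_smul M g⁻¹ x
      have h3 : algebraMap M Qb ((AlgEquiv.restrictNormalHom M g⁻¹ • x : 𝓞 M) : M)
          = g⁻¹ (algebraMap M Qb (x : M)) := h2
      rw [h3]
    have hgt : g t = t := apply_eq_of_below_smul M hKM hw hg hgw t htM ht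
    show AlgEquiv.restrictNormalHom M g • t' = t'
    apply RingOfIntegers.ext
    apply Subtype.ext
    have h2 := coe_restrictNormal_smul M g t'
    rw [h2]
    exact hgt
  obtain ⟨z', hz'inv, hz'⟩ := exists_invariant_sub_mem_pow (Γ := Γ0) w.asIdeal t' key (N + 1)
  obtain ⟨z, hz⟩ := exists_algebraMap_eq_of_fixed (K := K) (((z' : M) : Qb)) (by
    intro g hg
    have h1 := hz'inv ⟨AlgEquiv.restrictNormalHom M g, g, hg, rfl⟩
    have h2 : AlgEquiv.restrictNormalHom M g • z' = z' := h1
    have h3 := coe_restrictNormal_smul M g z'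
    rw [h2] at h3
    exact h3.symm)
  refine ⟨z, ?_⟩
  rw [hz]
  have hval : w.valuation M ((t' : M) - (z' : M)) < exp (-(N : ℤ)) := by
    have h1 : ((t' : M) - (z' : M)) = algebraMap (𝓞 M) M (t' - z') := by
      rw [map_sub]
    rw [h1, HeightOneSpectrum.valuation_of_algebraMap]
    refine lt_of_le_of_lt ((w.intValuation_le_pow_iff_mem _ _).2 hz') ?_
    rw [exp_lt_exp]
    push_cast
    omega
  exact hN _ _ hval

end Fermat.Agent.S55.Dict
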