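/-
S55 / DICT / Dense-5 = A2 : a number field is dense in its henselisations.  Owner: helper4.
-/
import Fermat.Agent.S55.Dict.Dense.InHensCore
import Fermat.Agent.S55.Dict.Dense.IntegralCase

set_option autoImplicit false

namespace Fermat.Agent.S55.Dict

open scoped Pointwise
open NumberField IsDedekindDomain WithZero
open Fermat.Agent.S55.NIT (Pl)

variable {K : Type} [Field K] [NumberField K] [Algebra K Qb]

/-- DICT-Dense-5 = A2: `K` is dense in its henselisation. -/
theorem exists_close_of_inHens {v : Pl K} {B : ValuationSubring Qb} (h : Below K v B) {q : ℕ}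
    (hq : q.Prime) (hv : OverQ K q v) (t : Qb) (ht : InHens K B t) (n : ℕ) :
    ∃ z : K, Close B q n t (algebraMap K Qb z) :=
  exists_close_of_inHens_of_integralCase h hq hv
    (fun t hint ht n => exists_close_of_inHens_of_isIntegral h hq hv t hint ht n) t ht n

end Fermat.Agent.S55.Dict
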