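/-
S55 / DICT / Dense, task DICT-Dense-6 (helper47): `K` is dense in `Map_{Dec B}(X_K, ℚ̄)` (A3).
-/
import Fermat.Agent.S55.Dict.Dense.EquivariantCore
import Fermat.Agent.S55.Dict.Dense.InHens

set_option autoImplicit false

namespace Fermat.Agent.S55.Dict

open scoped Pointwise
open NumberField IsDedekindDomain WithZero
open Fermat.Agent.S55.NIT (Pl)

variable {K : Type} [Field K] [NumberField K] [Algebra K Qb]

theorem denseA2 : DenseA2 K := fun h _ hq hv t ht n => exists_close_of_inHens h hq hv t ht n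

/-- DICT-Dense-6 (file Equivariant.lean). One coset. -/
theorem exists_close_apply {B : ValuationSubring Qb} {q : ℕ} (hq : q.Prime)
    (hB : B.LiesOverPrime q) (y : GQ ⧸ fixG K → Qb)
    (hy : ∀ d ∈ Dec B, ∀ x, y (d • x) = d (y x)) (n : ℕ) (g : GQ) :
    ∃ z : K, Close B q n (y (g : GQ ⧸ fixG K)) (g (algebraMap K Qb z)) :=
  exists_close_apply_of_denseA2 denseA2 hq hB y hy n g

/-- DICT-Dense-6 = A3 (file Equivariant.lean): `K` is dense in `Map_{Dec B}(X_K, ℚ̄)`. -/
theorem exists_close_of_equivariant {B : ValuationSubring Qb} {q : ℕ} (hq : q.Prime)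
    (hB : B.LiesOverPrime q) (y : GQ ⧸ fixG K → Qb)
    (hy : ∀ d ∈ Dec B, ∀ x, y (d • x) = d (y x)) (n : ℕ) :
    ∃ z : K, ∀ g : GQ, Close B q n (y (g : GQ ⧸ fixG K)) (g (algebraMap K Qb z)) :=
  exists_close_of_equivariant_of_denseA2 denseA2 hq hB y hy n

end Fermat.Agent.S55.Dict
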