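/-
S55 / DICT / Dense, node DICT-Dense-7 = M1 (owner helper256): multiplicative form of the density of
`K` in `Map_{Dec B}(X_K, ℚ̄)`.  Core: A2 is taken as the hypothesis `DenseA2 K` (as in
`Dense/EquivariantCore.lean`); `Dense/Mult.lean` plugs it in.
-/
import Fermat.Agent.S55.Dict.Fix
import Fermat.Agent.S55.Dict.Dense.EquivariantCore

set_option autoImplicit false

namespace Fermat.Agent.S55.Dict

open scoped Pointwise
open NumberField IsDedekindDomain WithZero
open Fermat.Agent.S55.NIT (Pl)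

variable {K : Type} [Field K] [NumberField K] [Algebra K Qb]

/-- DICT-Dense-7 = M1, core: multiplicative form. -/
theorem exists_glob_close_of_denseA2 (hA2 : DenseA2 K) {B : ValuationSubring Qb} {q : ℕ}
    (hq : q.Prime)
    (hB : B.LiesOverPrime q) (f : IndMod (GQ ⧸ fixG K) Kx) (hf : f ∈ invD (Dec B) (GQ ⧸ fixG K))
    (n : ℕ) : ∃ a : Kˣ, ∀ x, Close B q n ((f - glob K a) x).val 1 := by
  classical
  set y : GQ ⧸ fixG K → Qb := fun x => (f x).val with hydef
  have hy0 : ∀ x, y x ≠ 0 := fun x => Units.ne_zero _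
  have hy : ∀ d ∈ Dec B, ∀ x, y (d • x) = d (y x) := by
    intro d hd x
    have h1 := congrArg (fun F : IndMod (GQ ⧸ fixG K) Kx => F (d • x)) (hf d hd)
    simp only [IndMod.smul_apply, inv_smul_smul] at h1
    show (f (d • x)).val = d (f x).val
    rw [← h1, Kx.val_smul]
  have hqB : (q : Qb) ∈ B := natCast_mem B q
  obtain ⟨k, hk⟩ : ∃ k : ℕ, ∀ x, (q : Qb) ^ k * (y x)⁻¹ ∈ B := by
    choose κ hκ using fun x => exists_pow_mul_mem hq hB (y x)⁻¹
    have := Fintype.ofFinite (GQ ⧸ fixG K)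
    refine ⟨Finset.univ.sup κ, fun x => ?_⟩
    have hle : κ x ≤ Finset.univ.sup κ := Finset.le_sup (Finset.mem_univ x)
    obtain ⟨m, hm⟩ := Nat.exists_eq_add_of_le hle
    rw [hm, pow_add, mul_comm ((q : Qb) ^ κ x), mul_assoc]
    exact B.mul_mem _ _ (pow_mem hqB m) (hκ x)
  obtain ⟨z, hz⟩ := exists_close_of_equivariant_of_denseA2 hA2 hq hB y hy ((n + 1) + k)
  have hdiv : ∀ g : GQ, Close B q (n + 1) (g (algebraMap K Qb z) / y (g : GQ ⧸ fixG K)) 1 :=
    fun g => Close.div_one (hy0 _) (hk _) (hz g).symm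
  have hz0 : z ≠ 0 := by
    rintro rfl
    obtain ⟨c, hc, hc'⟩ := hdiv 1
    rw [map_zero, map_zero, zero_div, zero_sub] at hc'
    have hunit : (q : Qb) * (-((q : Qb) ^ n * c)) = 1 := by
      have : (q : Qb) ^ (n + 1) * c = -1 := hc'.symm
      rw [pow_succ] at this
      linear_combination -this
    have hmem : -((q : Qb) ^ n * c) ∈ B := B.neg_mem _ (B.mul_mem _ _ (pow_mem hqB n) hc)
    have hnon : (q : Qb) ∈ B.nonunits := hB
    rw [ValuationSubring.mem_nonunits_iff_or] at hnon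
    have hq0 : (q : Qb) ≠ 0 := by exact_mod_cast hq.ne_zero
    rcases hnon with h0 | h0
    · exact hq0 h0
    · apply h0
      have h3 : ((q : Qb))⁻¹ = -((q : Qb) ^ n * c) := inv_eq_of_mul_eq_one_right hunit
      rw [h3]
      exact hmem
  refine ⟨Units.mk0 z hz0, fun x => ?_⟩
  obtain ⟨g, rfl⟩ := QuotientGroup.mk_surjective x
  have h1 := (Close.inv_one hB (Nat.succ_le_succ (Nat.zero_le n)) (hdiv g)).mono (Nat.le_succ n)
  have h2 : ((f - glob K (Units.mk0 z hz0)) (g : GQ ⧸ fixG K)).val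
      = (g (algebraMap K Qb z) / y (g : GQ ⧸ fixG K))⁻¹ := by
    rw [IndMod.sub_apply, glob_mk, sub_eq_add_neg, Kx.val_add, Kx.val_neg, Kx.val_smul, kx_val,
      inv_div, Units.val_mk0, div_eq_mul_inv]
  rw [h2]
  exact h1

end Fermat.Agent.S55.Dict
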