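/-
S55 / DICT / Dense, node DICT-Dense-7 = M1 (owner helper256): multiplicative form of the density of
`K` in `Map_{Dec B}(X_K, ℚ̄)`.  The proof is in `Dense/MultCore.lean`; here A2 is plugged in.
-/
import Fermat.Agent.S55.Dict.Dense.MultCore
import Fermat.Agent.S55.Dict.Dense.InHens

set_option autoImplicit false

namespace Fermat.Agent.S55.Dict

open scoped Pointwise
open NumberField IsDedekindDomain WithZero
open Fermat.Agent.S55.NIT (Pl)

variable {K : Type} [Field K] [NumberField K] [Algebra K Qb]

/-- DICT-Dense-7 = M1 (file Mult.lean): multiplicative form. -/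
theorem exists_glob_close {B : ValuationSubring Qb} {q : ℕ} (hq : q.Prime)
    (hB : B.LiesOverPrime q) (f : IndMod (GQ ⧸ fixG K) Kx) (hf : f ∈ invD (Dec B) (GQ ⧸ fixG K))
    (n : ℕ) : ∃ a : Kˣ, ∀ x, Close B q n ((f - glob K a) x).val 1 :=
  exists_glob_close_of_denseA2
    (fun h _ hq' hv t ht m => exists_close_of_inHens h hq' hv t ht m) hq hB f hf n

end Fermat.Agent.S55.Dict
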